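/-
S52: a small reflection kit for polynomial identities in at most three variables with integer
coefficients (owner: helper41).  Mathlib-only.

An identity `e₁ = e₂` between polynomial expressions in `x₀ x₁ x₂ : R` (`R` any commutative ring)
is proved by writing both sides as expression trees `ME` (ordinary formulas: `+ - * ^`, numerals,
variables `ME.v0`, `ME.v1`, `ME.v2`) and letting the kernel compare normal forms:

  `ME.sound_eq x₀ x₁ x₂ e₁ e₂ (by decide +kernel) : ME.denote x₀ x₁ x₂ e₁ = ME.denote x₀ x₁ x₂ e₂`.

Normal forms are nested coefficient lists (`x₂` outermost, `x₀` innermost); zero coefficients are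
skipped in products, so sparse polynomials are cheap.  No `ring` call on large expressions.
`ME.lit p` embeds an explicit normal form, so that a large computation can be cut into stages
(each stage is a separate kernel computation of moderate size).
-/
import Mathlib

set_option autoImplicit false

namespace Fermat.Agent.S52.Refl.Mv

/-- Operations on a coefficient type. -/
structure Ops (C : Type) where
  /-- zero -/
  zero : C
  /-- addition -/
  add : C → C → C
  /-- negation -/
  neg : C → C
  /-- multiplication -/
  mul : C → C → C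
  /-- a test for zero -/
  isZero : C → Bool

/-- A semantics for a coefficient type in a commutative ring. -/
structure Sem (R : Type*) [CommRing R] {C : Type} (o : Ops C) where
  /-- the value of a coefficient -/
  ev : C → R
  ev_zero : ev o.zero = 0
  ev_add : ∀ a b, ev (o.add a b) = ev a + ev b
  ev_neg : ∀ a, ev (o.neg a) = -ev a
  ev_mul : ∀ a b, ev (o.mul a b) = ev a * ev b
  ev_isZero : ∀ a, o.isZero a = true → ev a = 0

section ListLayer

variable {C : Type} (o : Ops C)

/-- Addition of coefficient lists (padding the shorter one). -/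
def ladd : List C → List C → List C
  | [], l => l
  | a :: as, [] => a :: as
  | a :: as, b :: bs => o.add a b :: ladd as bs

/-- Multiplication of coefficient lists; zero coefficients are skipped. -/
def lmul : List C → List C → List C
  | [], _ => []
  | c :: p, q =>
    if o.isZero c then o.zero :: lmul p q
    else ladd o (q.map (o.mul c)) (o.zero :: lmul p q)

/-- All coefficients are zero. -/
def lzero : List C → Bool
  | [] => true
  | c :: l => o.isZero c && lzero l

/-- The operations on coefficient lists. -/
def listOps : Ops (List C) := ⟨[], ladd o, List.map o.neg, lmul o, lzero o⟩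

variable {R : Type*} [CommRing R] {o} (s : Sem R o) (x : R)

/-- Horner evaluation of a coefficient list at `x`. -/
def lev : List C → R
  | [] => 0
  | c :: l => s.ev c + x * lev l

lemma lev_ladd (p q : List C) : lev s x (ladd o p q) = lev s x p + lev s x q := by
  induction p generalizing q with
  | nil => simp [ladd, lev]
  | cons a as ih =>
    cases q with
    | nil => simp [ladd, lev]
    | cons b bs => simp only [ladd, lev, ih, s.ev_add]; ring

lemma lev_map_mul (c : C) (q : List C) : lev s x (q.map (o.mul c)) = s.ev c * lev s x q := by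
  induction q with
  | nil => simp [lev]
  | cons b bs ih => simp only [List.map_cons, lev, ih, s.ev_mul]; ring

lemma lev_map_neg (q : List C) : lev s x (q.map o.neg) = -lev s x q := by
  induction q with
  | nil => simp [lev]
  | cons b bs ih => simp only [List.map_cons, lev, ih, s.ev_neg]; ring

lemma lev_lmul (p q : List C) : lev s x (lmul o p q) = lev s x p * lev s x q := by
  induction p with
  | nil => simp [lmul, lev]
  | cons c p ih =>
    simp only [lmul]
    split_ifs with hc
    · simp only [lev, ih, s.ev_zero, s.ev_isZero c hc]; ring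
    · simp only [lev_ladd, lev_map_mul, lev, ih, s.ev_zero]; ring

lemma lev_lzero (p : List C) (h : lzero o p = true) : lev s x p = 0 := by
  induction p with
  | nil => simp [lev]
  | cons c p ih =>
    simp only [lzero, Bool.and_eq_true] at h
    simp only [lev, s.ev_isZero c h.1, ih h.2]; ring

/-- The semantics of coefficient lists: polynomials in `x`. -/
def listSem : Sem R (listOps o) where
  ev := lev s x
  ev_zero := rfl
  ev_add := lev_ladd s x
  ev_neg := lev_map_neg s x
  ev_mul := lev_lmul s x
  ev_isZero := lev_lzero s x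

end ListLayer

/-- Integer coefficients. -/
def intOps : Ops Int := ⟨0, Int.add, Int.neg, Int.mul, fun a => decide (a = 0)⟩

/-- Integers in a commutative ring. -/
def intSem (R : Type*) [CommRing R] : Sem R intOps where
  ev := fun a => (a : R)
  ev_zero := by simp [intOps]
  ev_add := fun a b => by
    show ((a + b : Int) : R) = _
    push_cast; rfl
  ev_neg := fun a => by
    show ((-a : Int) : R) = _
    push_cast; rfl
  ev_mul := fun a b => by
    show ((a * b : Int) : R) = _
    push_cast; rfl
  ev_isZero := fun a h => by
    have : a = 0 := by simpa [intOps] using h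
    simp [this]

/-- Operations on polynomials in one variable. -/
def ops1 : Ops (List Int) := listOps intOps
/-- Operations on polynomials in two variables. -/
def ops2 : Ops (List (List Int)) := listOps ops1
/-- Operations on polynomials in three variables. -/
def ops3 : Ops (List (List (List Int))) := listOps ops2

/-- Semantics of polynomials in three variables (`x₀` innermost). -/
def sem3 {R : Type*} [CommRing R] (x₀ x₁ x₂ : R) : Sem R ops3 :=
  listSem (listSem (listSem (intSem R) x₀) x₁) x₂

/-- Polynomial expressions in three variables. -/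
inductive ME : Type
  | v0
  | v1
  | v2
  | zero
  | one
  | num (k : ℕ)
  | add (a b : ME)
  | sub (a b : ME)
  | neg (a : ME)
  | mul (a b : ME)
  | pow (a : ME) (k : ℕ)
  | lit (p : List (List (List Int)))

namespace ME

instance : Add ME := ⟨ME.add⟩
instance : Sub ME := ⟨ME.sub⟩
instance : Neg ME := ⟨ME.neg⟩
instance : Mul ME := ⟨ME.mul⟩
instance : HPow ME ℕ ME := ⟨ME.pow⟩
instance : Zero ME := ⟨ME.zero⟩
instance : One ME := ⟨ME.one⟩
instance (n : ℕ) [n.AtLeastTwo] : OfNat ME n := ⟨ME.num n⟩

/-- Powers in normal form. -/
def npow (p : List (List (List Int))) : ℕ → List (List (List Int))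
  | 0 => [[[1]]]
  | k + 1 => ops3.mul p (npow p k)

/-- The normal form of an expression. -/
def norm : ME → List (List (List Int))
  | v0 => [[[0, 1]]]
  | v1 => [[[], [1]]]
  | v2 => [[], [[1]]]
  | zero => []
  | one => [[[1]]]
  | num k => [[[(k : Int)]]]
  | add a b => ops3.add (norm a) (norm b)
  | sub a b => ops3.add (norm a) (ops3.neg (norm b))
  | neg a => ops3.neg (norm a)
  | mul a b => ops3.mul (norm a) (norm b)
  | pow a k => npow (norm a) k
  | lit p => p

/-- The equality test. -/
def checkEq (e₁ e₂ : ME) : Bool := ops3.isZero (ops3.add (norm e₁) (ops3.neg (norm e₂)))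

variable {R : Type*} [CommRing R] (x₀ x₁ x₂ : R)

/-- The value of an expression. -/
def denote : ME → R
  | v0 => x₀
  | v1 => x₁
  | v2 => x₂
  | zero => 0
  | one => 1
  | num k => (k : R)
  | add a b => denote a + denote b
  | sub a b => denote a - denote b
  | neg a => -denote a
  | mul a b => denote a * denote b
  | pow a k => denote a ^ k
  | lit p => (sem3 x₀ x₁ x₂).ev p

@[simp] lemma denote_v0 : denote x₀ x₁ x₂ v0 = x₀ := rfl
@[simp] lemma denote_v1 : denote x₀ x₁ x₂ v1 = x₁ := rfl
@[simp] lemma denote_v2 : denote x₀ x₁ x₂ v2 = x₂ := rfl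
@[simp] lemma denote_zero : denote x₀ x₁ x₂ (0 : ME) = 0 := rfl
@[simp] lemma denote_one : denote x₀ x₁ x₂ (1 : ME) = 1 := rfl
@[simp] lemma denote_num (k : ℕ) : denote x₀ x₁ x₂ (num k) = (k : R) := rfl
@[simp] lemma denote_ofNat (n : ℕ) [n.AtLeastTwo] :
    denote x₀ x₁ x₂ (ofNat(n) : ME) = (OfNat.ofNat n : R) := rfl
@[simp] lemma denote_add (a b : ME) :
    denote x₀ x₁ x₂ (a + b) = denote x₀ x₁ x₂ a + denote x₀ x₁ x₂ b := rfl
@[simp] lemma denote_sub (a b : ME) :
    denote x₀ x₁ x₂ (a - b) = denote x₀ x₁ x₂ a - denote x₀ x₁ x₂ b := rfl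
@[simp] lemma denote_neg (a : ME) : denote x₀ x₁ x₂ (-a) = -denote x₀ x₁ x₂ a := rfl
@[simp] lemma denote_mul (a b : ME) :
    denote x₀ x₁ x₂ (a * b) = denote x₀ x₁ x₂ a * denote x₀ x₁ x₂ b := rfl
@[simp] lemma denote_pow (a : ME) (k : ℕ) :
    denote x₀ x₁ x₂ (a ^ k) = denote x₀ x₁ x₂ a ^ k := rfl
@[simp] lemma denote_lit (p : List (List (List Int))) :
    denote x₀ x₁ x₂ (lit p) = (sem3 x₀ x₁ x₂).ev p := rfl

lemma ev_npow (p : List (List (List Int))) (k : ℕ) :
    (sem3 x₀ x₁ x₂).ev (npow p k) = (sem3 x₀ x₁ x₂).ev p ^ k := by
  induction k with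
  | zero => simp [npow, sem3, listSem, lev, intSem]
  | succ k ih => rw [npow, (sem3 x₀ x₁ x₂).ev_mul, ih, pow_succ']

theorem norm_sound (e : ME) : (sem3 x₀ x₁ x₂).ev (norm e) = denote x₀ x₁ x₂ e := by
  induction e with
  | v0 => simp [norm, sem3, listSem, lev, intSem, denote]
  | v1 => simp [norm, sem3, listSem, lev, intSem, denote]
  | v2 => simp [norm, sem3, listSem, lev, intSem, denote]
  | zero => simp [norm, sem3, listSem, lev, denote]
  | one => simp [norm, sem3, listSem, lev, intSem, denote]
  | num k => simp [norm, sem3, listSem, lev, intSem, denote]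
  | add a b iha ihb => rw [norm, (sem3 x₀ x₁ x₂).ev_add, iha, ihb]; rfl
  | sub a b iha ihb =>
    rw [norm, (sem3 x₀ x₁ x₂).ev_add, (sem3 x₀ x₁ x₂).ev_neg, iha, ihb, ← sub_eq_add_neg]; rfl
  | neg a iha => rw [norm, (sem3 x₀ x₁ x₂).ev_neg, iha]; rfl
  | mul a b iha ihb => rw [norm, (sem3 x₀ x₁ x₂).ev_mul, iha, ihb]; rfl
  | pow a k iha => rw [norm, ev_npow, iha]; rfl
  | lit p => rfl

/-- **Soundness of the equality test**: if the kernel evaluates `checkEq e₁ e₂` to `true`, the two
expressions have the same value in every commutative ring. -/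
theorem sound_eq (e₁ e₂ : ME) (h : checkEq e₁ e₂ = true) :
    denote x₀ x₁ x₂ e₁ = denote x₀ x₁ x₂ e₂ := by
  have h0 := (sem3 x₀ x₁ x₂).ev_isZero _ h
  rw [(sem3 x₀ x₁ x₂).ev_add, (sem3 x₀ x₁ x₂).ev_neg, norm_sound, norm_sound] at h0
  linear_combination h0

end ME

end Fermat.Agent.S52.Refl.Mv
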