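/-
S52 / Klein blocks: a small reflection kit for identities between binary forms in `x, y` with
coefficients in `ℤ[ζ₅]` (owner: helper41).  Mathlib-only.

An identity between homogeneous polynomial expressions in `x y : K` (`K` any commutative ring with
`z : K`, `z⁴+z³+z²+z+1 = 0`) is proved by
* describing both sides as expression trees `FE` over finitely many *atoms* (binary forms given by
  their degree and coefficient list, e.g. `x`, `y`, a linear form `α x + β y`, or any explicit form),
* checking the equality of the normal forms by kernel computation: `by decide +kernel`.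

Main statement: `FE.sound_eq`.  No `ring` call on large expressions is needed: `ring` is only used
to show that each atom is the evaluation of its coefficient list (`AtomsOK`).
-/
import Mathlib

set_option autoImplicit false

namespace Fermat.Agent.S52.Refl

/-- Elements of `ℤ[ζ₅]` in the basis `1, z, z², z³`. -/
structure Z5 where
  a : Int
  b : Int
  c : Int
  d : Int
deriving DecidableEq

namespace Z5

/-- Zero. -/
def zero : Z5 := ⟨0, 0, 0, 0⟩

/-- One. -/
def one : Z5 := ⟨1, 0, 0, 0⟩

/-- Integers. -/
def ofNat (k : ℕ) : Z5 := ⟨(k : Int), 0, 0, 0⟩

/-- Addition. -/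
def add (u v : Z5) : Z5 := ⟨u.a + v.a, u.b + v.b, u.c + v.c, u.d + v.d⟩

/-- Negation. -/
def neg (u : Z5) : Z5 := ⟨-u.a, -u.b, -u.c, -u.d⟩

/-- Multiplication, reduced modulo `z⁴+z³+z²+z+1`. -/
def mul (u v : Z5) : Z5 :=
  let r4 := u.b * v.d + u.c * v.c + u.d * v.b
  ⟨u.a * v.a + (u.c * v.d + u.d * v.c) - r4,
   u.a * v.b + u.b * v.a + u.d * v.d - r4,
   u.a * v.c + u.b * v.b + u.c * v.a - r4,
   u.a * v.d + u.b * v.c + u.c * v.b + u.d * v.a - r4⟩

/-- Test for zero. -/
def isZero (u : Z5) : Bool :=
  decide (u.a = 0) && decide (u.b = 0) && decide (u.c = 0) && decide (u.d = 0)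

variable {K : Type*} [CommRing K]

/-- Evaluation at `z`. -/
def ev (u : Z5) (z : K) : K := (u.a : K) + (u.b : K) * z + (u.c : K) * z ^ 2 + (u.d : K) * z ^ 3

lemma ev_zero (z : K) : ev zero z = 0 := by simp [ev, zero]

lemma ev_one (z : K) : ev one z = 1 := by simp [ev, one]

lemma ev_ofNat (k : ℕ) (z : K) : ev (ofNat k) z = (k : K) := by simp [ev, ofNat]

lemma ev_add (u v : Z5) (z : K) : ev (add u v) z = ev u z + ev v z := by
  simp only [ev, add]; push_cast; ring

lemma ev_neg (u : Z5) (z : K) : ev (neg u) z = -ev u z := by
  simp only [ev, neg]; push_cast; ring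

lemma ev_mul (u v : Z5) (z : K) (hz : z ^ 4 + z ^ 3 + z ^ 2 + z + 1 = 0) :
    ev (mul u v) z = ev u z * ev v z := by
  simp only [ev, mul]
  push_cast
  linear_combination
    (-(((u.b : K) * v.d + u.c * v.c + u.d * v.b) +
      (((u.c : K) * v.d + u.d * v.c) + (u.d : K) * v.d * z) * (z - 1))) * hz

lemma ev_of_isZero {u : Z5} (h : isZero u = true) (z : K) : ev u z = 0 := by
  simp only [isZero, Bool.and_eq_true, decide_eq_true_eq] at h
  obtain ⟨⟨⟨h1, h2⟩, h3⟩, h4⟩ := h
  simp [ev, h1, h2, h3, h4]

end Z5

/-- Addition of coefficient lists (the shorter list is padded). -/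
def padd : List Z5 → List Z5 → List Z5
  | [], l => l
  | a :: as, [] => a :: as
  | a :: as, b :: bs => Z5.add a b :: padd as bs

/-- Multiplication of coefficient lists. -/
def conv : List Z5 → List Z5 → List Z5
  | [], _ => []
  | c :: p, q => padd (q.map (Z5.mul c)) (Z5.zero :: conv p q)

/-- All coefficients vanish. -/
def allZero : List Z5 → Bool
  | [] => true
  | c :: l => Z5.isZero c && allZero l

/-- `n`-th entry of a list. -/
def nth {α : Type} : List α → ℕ → Option α
  | [], _ => none
  | a :: _, 0 => some a
  | _ :: l, n + 1 => nth l n

section Eval

variable {K : Type*} [CommRing K] (z x y : K)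

/-- Evaluation of a coefficient list as a binary form of degree `n`:
`[c₀, c₁, …] ↦ c₀ yⁿ + c₁ x yⁿ⁻¹ + …`. -/
def evalF : ℕ → List Z5 → K
  | _, [] => 0
  | n, c :: l => Z5.ev c z * y ^ n + x * evalF (n - 1) l

@[simp] lemma evalF_nil (n : ℕ) : evalF z x y n [] = 0 := by
  cases n <;> rfl

lemma evalF_cons (n : ℕ) (c : Z5) (l : List Z5) :
    evalF z x y n (c :: l) = Z5.ev c z * y ^ n + x * evalF z x y (n - 1) l := by
  cases n <;> rfl

lemma evalF_padd (p q : List Z5) (n : ℕ) :
    evalF z x y n (padd p q) = evalF z x y n p + evalF z x y n q := by
  induction p generalizing q n with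
  | nil => simp [padd]
  | cons a as ih =>
    cases q with
    | nil => simp [padd]
    | cons b bs =>
      simp only [padd, evalF_cons, ih, Z5.ev_add]
      ring

lemma evalF_map_mul (hz : z ^ 4 + z ^ 3 + z ^ 2 + z + 1 = 0) (c : Z5) (q : List Z5) (n : ℕ) :
    evalF z x y n (q.map (Z5.mul c)) = Z5.ev c z * evalF z x y n q := by
  induction q generalizing n with
  | nil => simp
  | cons b bs ih =>
    simp only [List.map_cons, evalF_cons, ih, Z5.ev_mul _ _ _ hz]
    ring

lemma evalF_map_neg (q : List Z5) (n : ℕ) :
    evalF z x y n (q.map Z5.neg) = -evalF z x y n q := by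
  induction q generalizing n with
  | nil => simp
  | cons b bs ih =>
    simp only [List.map_cons, evalF_cons, ih, Z5.ev_neg]
    ring

lemma evalF_shift (l : List Z5) (n k : ℕ) (h : l.length ≤ n + 1) :
    evalF z x y (n + k) l = y ^ k * evalF z x y n l := by
  induction l generalizing n with
  | nil => simp
  | cons c l ih =>
    rw [evalF_cons, evalF_cons]
    cases n with
    | zero =>
      have hl : l = [] := by
        simp only [List.length_cons] at h
        exact List.length_eq_zero_iff.mp (by omega)
      subst hl
      simp only [evalF_nil, mul_zero, add_zero, zero_add, pow_zero, mul_one]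
      ring
    | succ m =>
      have h' : l.length ≤ m + 1 := by simp only [List.length_cons] at h; omega
      have e1 : m + 1 + k - 1 = m + k := by omega
      have e2 : m + 1 - 1 = m := by omega
      rw [e1, e2, ih m h']
      ring

lemma evalF_conv (hz : z ^ 4 + z ^ 3 + z ^ 2 + z + 1 = 0) (p q : List Z5) (n m : ℕ)
    (hp : p.length ≤ n + 1) (hq : q.length ≤ m + 1) :
    evalF z x y (n + m) (conv p q) = evalF z x y n p * evalF z x y m q := by
  induction p generalizing n with
  | nil => simp [conv]
  | cons c p ih =>
    have hs : evalF z x y (n + m) q = y ^ n * evalF z x y m q := by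
      rw [add_comm n m]; exact evalF_shift z x y q m n hq
    simp only [conv, evalF_padd, evalF_map_mul z x y hz, evalF_cons, Z5.ev_zero, hs]
    cases n with
    | zero =>
      have hl : p = [] := by
        simp only [List.length_cons] at hp
        exact List.length_eq_zero_iff.mp (by omega)
      subst hl
      simp only [conv, evalF_nil]
      ring
    | succ k =>
      have h' : p.length ≤ k + 1 := by simp only [List.length_cons] at hp; omega
      have e1 : k + 1 + m - 1 = k + m := by omega
      have e2 : k + 1 - 1 = k := by omega
      rw [e1, e2, ih k h']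
      ring

lemma evalF_of_allZero (l : List Z5) (h : allZero l = true) (n : ℕ) : evalF z x y n l = 0 := by
  induction l generalizing n with
  | nil => simp
  | cons c l ih =>
    simp only [allZero, Bool.and_eq_true] at h
    rw [evalF_cons, Z5.ev_of_isZero h.1, ih h.2]
    ring

/-- The atoms: `vals` are the values, `data` their degrees and coefficient lists. -/
def AtomsOK : List (ℕ × List Z5) → List K → Prop
  | [], _ => True
  | _ :: _, [] => False
  | d :: ds, v :: vs => v = evalF z x y d.1 d.2 ∧ AtomsOK ds vs

lemma AtomsOK.spec {data : List (ℕ × List Z5)} {vals : List K} (h : AtomsOK z x y data vals)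
    (i : ℕ) (d : ℕ × List Z5) (hd : nth data i = some d) :
    vals.getD i 0 = evalF z x y d.1 d.2 := by
  induction data generalizing vals i with
  | nil => simp [nth] at hd
  | cons d0 ds ih =>
    cases vals with
    | nil => exact absurd h (by simp [AtomsOK])
    | cons v vs =>
      obtain ⟨h1, h2⟩ := h
      cases i with
      | zero =>
        simp only [nth, Option.some.injEq] at hd
        subst hd
        simpa using h1
      | succ j =>
        simp only [nth] at hd
        simpa using ih h2 j hd

end Eval

/-- Expression trees for binary forms. -/
inductive FE : Type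
  | atom (i : ℕ)
  | num (k : ℕ)
  | add (a b : FE)
  | sub (a b : FE)
  | neg (a : FE)
  | mul (a b : FE)
  | pow (a : FE) (k : ℕ)

namespace FE

instance : Add FE := ⟨FE.add⟩
instance : Sub FE := ⟨FE.sub⟩
instance : Neg FE := ⟨FE.neg⟩
instance : Mul FE := ⟨FE.mul⟩
instance : HPow FE ℕ FE := ⟨FE.pow⟩

/-- Powers of a coefficient list, with the running degree; `none` if a length check fails. -/
def normPow (n : ℕ) (p : List Z5) : ℕ → Option (ℕ × List Z5)
  | 0 => some (0, [Z5.one])
  | k + 1 =>
    match normPow n p k with
    | some (m, q) =>
      if (conv p q).length ≤ n + m + 1 then some (n + m, conv p q) else none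
    | none => none

/-- Degree and coefficient list of an expression; `none` if a degree or length check fails. -/
def norm (data : List (ℕ × List Z5)) : FE → Option (ℕ × List Z5)
  | atom i =>
    match nth data i with
    | some (n, l) => if l.length ≤ n + 1 then some (n, l) else none
    | none => none
  | num k => some (0, [Z5.ofNat k])
  | add a b =>
    match norm data a, norm data b with
    | some (n, p), some (m, q) => if n = m then some (n, padd p q) else none
    | _, _ => none
  | sub a b =>
    match norm data a, norm data b with
    | some (n, p), some (m, q) => if n = m then some (n, padd p (q.map Z5.neg)) else none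
    | _, _ => none
  | neg a =>
    match norm data a with
    | some (n, p) => some (n, p.map Z5.neg)
    | none => none
  | mul a b =>
    match norm data a, norm data b with
    | some (n, p), some (m, q) =>
      if (conv p q).length ≤ n + m + 1 then some (n + m, conv p q) else none
    | _, _ => none
  | pow a k =>
    match norm data a with
    | some (n, p) => normPow n p k
    | none => none

/-- The equality test: equal degrees and equal coefficient lists (up to padding). -/
def checkEq (data : List (ℕ × List Z5)) (e₁ e₂ : FE) : Bool :=
  match norm data e₁, norm data e₂ with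
  | some (n, p), some (m, q) => decide (n = m) && allZero (padd p (q.map Z5.neg))
  | _, _ => false

variable {K : Type*} [CommRing K]

/-- The value of an expression. -/
def denote (vals : List K) : FE → K
  | atom i => vals.getD i 0
  | num k => (k : K)
  | add a b => denote vals a + denote vals b
  | sub a b => denote vals a - denote vals b
  | neg a => -denote vals a
  | mul a b => denote vals a * denote vals b
  | pow a k => denote vals a ^ k

@[simp] lemma denote_atom (vals : List K) (i : ℕ) : denote vals (atom i) = vals.getD i 0 := rfl
@[simp] lemma denote_num (vals : List K) (k : ℕ) : denote vals (num k) = (k : K) := rfl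
@[simp] lemma denote_add (vals : List K) (a b : FE) :
    denote vals (a + b) = denote vals a + denote vals b := rfl
@[simp] lemma denote_sub (vals : List K) (a b : FE) :
    denote vals (a - b) = denote vals a - denote vals b := rfl
@[simp] lemma denote_neg (vals : List K) (a : FE) : denote vals (-a) = -denote vals a := rfl
@[simp] lemma denote_mul (vals : List K) (a b : FE) :
    denote vals (a * b) = denote vals a * denote vals b := rfl
@[simp] lemma denote_pow (vals : List K) (a : FE) (k : ℕ) :
    denote vals (a ^ k) = denote vals a ^ k := rfl

variable (z x y : K)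

lemma normPow_sound (hz : z ^ 4 + z ^ 3 + z ^ 2 + z + 1 = 0) (n : ℕ) (p : List Z5)
    (hp : p.length ≤ n + 1) (k : ℕ) (m : ℕ) (q : List Z5) (h : normPow n p k = some (m, q)) :
    evalF z x y n p ^ k = evalF z x y m q ∧ q.length ≤ m + 1 := by
  induction k generalizing m q with
  | zero =>
    simp only [normPow, Option.some.injEq, Prod.mk.injEq] at h
    obtain ⟨rfl, rfl⟩ := h
    simp [evalF_cons, Z5.ev_one]
  | succ k ih =>
    simp only [normPow] at h
    cases hk : normPow n p k with
    | none => rw [hk] at h; simp at h
    | some r =>
      obtain ⟨m', q'⟩ := r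
      rw [hk] at h
      simp only at h
      split_ifs at h with hlen
      simp only [Option.some.injEq, Prod.mk.injEq] at h
      obtain ⟨rfl, rfl⟩ := h
      obtain ⟨e, hq'⟩ := ih m' q' hk
      refine ⟨?_, hlen⟩
      rw [pow_succ', e, evalF_conv z x y hz p q' n m' hp hq']

theorem norm_sound (hz : z ^ 4 + z ^ 3 + z ^ 2 + z + 1 = 0) (data : List (ℕ × List Z5))
    (vals : List K) (hA : AtomsOK z x y data vals) (e : FE) (n : ℕ) (l : List Z5)
    (h : norm data e = some (n, l)) :
    denote vals e = evalF z x y n l ∧ l.length ≤ n + 1 := by
  induction e generalizing n l with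
  | atom i =>
    simp only [norm] at h
    cases hd : nth data i with
    | none => rw [hd] at h; simp at h
    | some d =>
      obtain ⟨n', l'⟩ := d
      rw [hd] at h
      simp only at h
      split_ifs at h with hlen
      simp only [Option.some.injEq, Prod.mk.injEq] at h
      obtain ⟨rfl, rfl⟩ := h
      exact ⟨hA.spec z x y i _ hd, hlen⟩
  | num k =>
    simp only [norm, Option.some.injEq, Prod.mk.injEq] at h
    obtain ⟨rfl, rfl⟩ := h
    simp [denote, evalF_cons, Z5.ev_ofNat]
  | add a b iha ihb =>
    simp only [norm] at h
    cases ha : norm data a with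
    | none => rw [ha] at h; simp at h
    | some ra =>
      cases hb : norm data b with
      | none => rw [ha, hb] at h; simp at h
      | some rb =>
        obtain ⟨na, pa⟩ := ra
        obtain ⟨nb, pb⟩ := rb
        rw [ha, hb] at h
        simp only at h
        split_ifs at h with hnm
        simp only [Option.some.injEq, Prod.mk.injEq] at h
        obtain ⟨rfl, rfl⟩ := h
        subst hnm
        obtain ⟨ea, la⟩ := iha _ _ ha
        obtain ⟨eb, lb⟩ := ihb _ _ hb
        refine ⟨by simp only [denote, ea, eb, evalF_padd], ?_⟩
        have : ∀ (p q : List Z5), (padd p q).length ≤ max p.length q.length := by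
          intro p
          induction p with
          | nil => intro q; simp [padd]
          | cons a as ih =>
            intro q
            cases q with
            | nil => simp [padd]
            | cons b bs => simp only [padd, List.length_cons]; have := ih bs; omega
        have := this pa pb
        omega
  | sub a b iha ihb =>
    simp only [norm] at h
    cases ha : norm data a with
    | none => rw [ha] at h; simp at h
    | some ra =>
      cases hb : norm data b with
      | none => rw [ha, hb] at h; simp at h
      | some rb =>
        obtain ⟨na, pa⟩ := ra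
        obtain ⟨nb, pb⟩ := rb
        rw [ha, hb] at h
        simp only at h
        split_ifs at h with hnm
        simp only [Option.some.injEq, Prod.mk.injEq] at h
        obtain ⟨rfl, rfl⟩ := h
        subst hnm
        obtain ⟨ea, la⟩ := iha _ _ ha
        obtain ⟨eb, lb⟩ := ihb _ _ hb
        refine ⟨by simp only [denote, ea, eb, evalF_padd, evalF_map_neg]; ring, ?_⟩
        have : ∀ (p q : List Z5), (padd p q).length ≤ max p.length q.length := by
          intro p
          induction p with
          | nil => intro q; simp [padd]
          | cons a as ih =>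
            intro q
            cases q with
            | nil => simp [padd]
            | cons b bs => simp only [padd, List.length_cons]; have := ih bs; omega
        have := this pa (pb.map Z5.neg)
        simp only [List.length_map] at this
        omega
  | neg a iha =>
    simp only [norm] at h
    cases ha : norm data a with
    | none => rw [ha] at h; simp at h
    | some ra =>
      obtain ⟨na, pa⟩ := ra
      rw [ha] at h
      simp only [Option.some.injEq, Prod.mk.injEq] at h
      obtain ⟨rfl, rfl⟩ := h
      obtain ⟨ea, la⟩ := iha _ _ ha
      exact ⟨by simp only [denote, ea, evalF_map_neg], by simpa using la⟩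
  | mul a b iha ihb =>
    simp only [norm] at h
    cases ha : norm data a with
    | none => rw [ha] at h; simp at h
    | some ra =>
      cases hb : norm data b with
      | none => rw [ha, hb] at h; simp at h
      | some rb =>
        obtain ⟨na, pa⟩ := ra
        obtain ⟨nb, pb⟩ := rb
        rw [ha, hb] at h
        simp only at h
        split_ifs at h with hlen
        simp only [Option.some.injEq, Prod.mk.injEq] at h
        obtain ⟨rfl, rfl⟩ := h
        obtain ⟨ea, la⟩ := iha _ _ ha
        obtain ⟨eb, lb⟩ := ihb _ _ hb
        exact ⟨by simp only [denote, ea, eb, evalF_conv z x y hz pa pb na nb la lb], hlen⟩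
  | pow a k iha =>
    simp only [norm] at h
    cases ha : norm data a with
    | none => rw [ha] at h; simp at h
    | some ra =>
      obtain ⟨na, pa⟩ := ra
      rw [ha] at h
      simp only at h
      obtain ⟨ea, la⟩ := iha _ _ ha
      obtain ⟨e, hl⟩ := normPow_sound z x y hz na pa la k n l h
      exact ⟨by simp only [denote, ea, e], hl⟩

/-- **Soundness of the equality test.**  If the kernel evaluates `checkEq data e₁ e₂` to `true`
then the two expressions have the same value in every commutative ring with a root `z` of the
fifth cyclotomic polynomial. -/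
theorem sound_eq (hz : z ^ 4 + z ^ 3 + z ^ 2 + z + 1 = 0) (data : List (ℕ × List Z5))
    (vals : List K) (hA : AtomsOK z x y data vals) (e₁ e₂ : FE)
    (h : checkEq data e₁ e₂ = true) : denote vals e₁ = denote vals e₂ := by
  simp only [checkEq] at h
  cases h1 : norm data e₁ with
  | none => rw [h1] at h; simp at h
  | some r1 =>
    cases h2 : norm data e₂ with
    | none => rw [h1, h2] at h; simp at h
    | some r2 =>
      obtain ⟨n, p⟩ := r1
      obtain ⟨m, q⟩ := r2
      rw [h1, h2] at h
      simp only [Bool.and_eq_true, decide_eq_true_eq] at h
      obtain ⟨rfl, hzero⟩ := h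
      obtain ⟨e1, -⟩ := norm_sound z x y hz data vals hA e₁ _ _ h1
      obtain ⟨e2, -⟩ := norm_sound z x y hz data vals hA e₂ _ _ h2
      have := evalF_of_allZero z x y _ hzero n
      rw [evalF_padd, evalF_map_neg] at this
      rw [e1, e2]
      linear_combination this

end FE

end Fermat.Agent.S52.Refl
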